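import Fermat.Agent.AV.Cnt14.All
import Fermat.Agent.AV.Basics88.NsmulEtale
import Fermat.Agent.AV.Vol82.Abstract

/-!
# DEG (CELL AV): S26 from ETN + CNT + VOLABS and the geometric volume input

`VolumeInput G g n` is exactly what layers 1-2 (PIC, FACT, UPB, CUBE, SAND) have to deliver:
a dimension function `a m = h⁰(A, L^m)` with two-sided growth bounds of order `m ^ g` and, for
every power `N` of `n`, the sandwich `deg [N] · a (m - c) ≤ a (N² m) ≤ deg [N] · a (m + c)`.
From it the exact conclusion of S26 follows (`result_of_volumeInput`).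
-/

set_option autoImplicit false
set_option linter.unusedSectionVars false

namespace Fermat.Agent.AV.Deg14

open CategoryTheory CategoryTheory.Limits AlgebraicGeometry NeronModelInfra GoodReductionJacobian
open Fermat.Agent.AV.Cnt14

universe u

variable {K : Type u} [Field K] [IsAlgClosed K] {A : Scheme.{u}}
  {f : A ⟶ Spec (CommRingCat.of K)} (G : RelativeGroupLaw K f)

/-- `(n : K) ≠ 0` implies `(n ^ j : K) ≠ 0`. -/
theorem natCast_pow_ne_zero {n : ℕ} (hn : (n : K) ≠ 0) (j : ℕ) : ((n ^ j : ℕ) : K) ≠ 0 := by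
  rw [Nat.cast_pow]
  exact pow_ne_zero j hn

theorem one_le_of_natCast_ne_zero {n : ℕ} (hn : (n : K) ≠ 0) : 1 ≤ n := by
  rcases Nat.eq_zero_or_pos n with h | h
  · exact absurd (by rw [h, Nat.cast_zero]) hn
  · exact h

/-- **Count = degree**, with the étaleness supplied by ETN. -/
theorem natCard_torsion_eq_deg (hc : G.IsCommutative) (hA : AbelianSchemePropertyBundle K f)
    (n : ℕ) (hn : (n : K) ≠ 0) :
    Nat.card {x : SchemeHomOver (𝟙 (Spec (CommRingCat.of K))) f //
        G.IsTorsionPoint (𝟙 (Spec (CommRingCat.of K))) n x} = deg G n := by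
  have := Basics88.NsmulEtale.etale_schemeNsmul_of_bundle G hc hA n hn
  exact Cnt14.natCard_torsion_eq_deg G hA n

/-- `deg [n^j] = (deg [n])^j`, with the étaleness supplied by ETN. -/
theorem deg_pow (hc : G.IsCommutative) (hA : AbelianSchemePropertyBundle K f)
    (n : ℕ) (hn : (n : K) ≠ 0) (j : ℕ) : deg G (n ^ j) = (deg G n) ^ j := by
  have := Basics88.NsmulEtale.etale_schemeNsmul_of_bundle G hc hA n hn
  have := Basics88.NsmulEtale.etale_schemeNsmul_of_bundle G hc hA (n ^ j)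
    (natCast_pow_ne_zero hn j)
  exact Cnt14.deg_pow G hc hA n j

/-- The geometric input of the volume trick: a function `a` (to be `m ↦ h⁰(A, L^m)`) with growth of
order `m ^ g` and the sandwich for every power `N` of `n`. -/
structure VolumeInput (g n : ℕ) : Prop where
  exists_data : ∃ (a : ℕ → ℕ) (C₁ C₂ : ℝ), 0 < C₁ ∧
    (∃ m₀ : ℕ, ∀ m : ℕ, m₀ ≤ m → C₁ * (m : ℝ) ^ g ≤ a m) ∧
    (∃ m₀ : ℕ, ∀ m : ℕ, m₀ ≤ m → (a m : ℝ) ≤ C₂ * (m : ℝ) ^ g) ∧
    (∀ N : ℕ, (∃ j : ℕ, N = n ^ j) → ∃ c : ℕ, ∀ m : ℕ, c < m →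
      deg G N * a (m - c) ≤ a (N ^ 2 * m) ∧ a (N ^ 2 * m) ≤ deg G N * a (m + c))

/-- `deg [n] = n ^ (2 g)` from the volume input. -/
theorem deg_eq_pow_of_volumeInput (hc : G.IsCommutative) (hA : AbelianSchemePropertyBundle K f)
    (g n : ℕ) (hn : (n : K) ≠ 0) (hV : VolumeInput G g n) : deg G n = n ^ (2 * g) := by
  obtain ⟨a, C₁, C₂, hC₁, hlow, hupp, hsand⟩ := hV.exists_data
  exact Vol82.deg_eq_pow_of_sandwich g n (one_le_of_natCast_ne_zero hn) (deg G)
    (fun j => deg_pow G hc hA n hn j) a C₁ C₂ hC₁ hlow hupp hsand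

/-- **S26 modulo the volume input.** -/
theorem result_of_volumeInput (hc : G.IsCommutative) (hA : AbelianSchemePropertyBundle K f)
    (g n : ℕ) (hn : (n : K) ≠ 0) (hV : VolumeInput G g n) :
    Nat.card {x : SchemeHomOver (𝟙 (Spec (CommRingCat.of K))) f //
        G.IsTorsionPoint (𝟙 (Spec (CommRingCat.of K))) n x} = n ^ (2 * g) := by
  rw [natCard_torsion_eq_deg G hc hA n hn]
  exact deg_eq_pow_of_volumeInput G hc hA g n hn hV

end Fermat.Agent.AV.Deg14
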