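import Fermat.Agent.AV.Sand86.VolInst
import Fermat.Agent.AV.Box14.SumDegree
import Fermat.Agent.AV.Fact49.SymmetricDiv
import Fermat.Agent.AV.PicDiv86.Symmetric
import Fermat.Agent.AV.CCube32.CurveCube

/-!
# DEG (CELL AV): assembly of `#A[n] = n ^ (2 g)`

For a commutative group scheme `A` over an algebraically closed field `K`, smooth of relative
dimension `g`, proper with connected fibres, and `g` pointed smooth proper curves through the origin
with dominant sum map (`Curv33.CurvStatement`, the output of brick CURV; for Jacobians it is Jacobi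
inversion), the number of `n`-torsion points is `n ^ (2 g)` for `n` invertible in `K`.

Inputs (all landed bricks): S25 (representability for the curves), CCUBE + CUBE (`Cube82`,
`Pic38.Calc`), NORMD/NormPic, GENFIN (`Box14.SumDegree`), FACT (`Fact49.SymmetricDiv`), UPB
(`Box14.Transfer`), SAND + VOLINST (`Sand86`), VOLABS (`Vol82`), CNT/ETN (`Cnt14`, `Basics88`).
-/

set_option autoImplicit false
set_option linter.style.haveILetI false
set_option linter.unusedSectionVars false

open CategoryTheory CategoryTheory.Limits AlgebraicGeometry AlgebraicGeometry.RelPicard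
  TopologicalSpace Opposite
open Fermat.Agent.Jac Fermat.Agent.AV.PicDiv86 NeronModelInfra GoodReductionJacobian
open Fermat.Agent.AV.Curv33 Fermat.Agent.AV.Pic38

universe u

noncomputable section

namespace Fermat.Agent.AV.Deg14

variable {K : Type u} [Field K] [IsAlgClosed K] {A : Scheme.{u}}
  {f : A ⟶ Spec (CommRingCat.of K)} (G : RelativeGroupLaw K f)

/-- S25 for every curve of a list. -/
theorem hrep_of_s25 {e : SchemeHomOver (𝟙 (Spec (CommRingCat.of K))) f} (l : List (CurveTo f e)) :
    ∀ X ∈ l, ∃ (D : RelativePic0Designation K X.c)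
      (_ : RepresentsRelSubPic X.c X.ε (algEquivZeroCut X.c X.ε) D),
      IsSeparated D.toBase ∧ LocallyOfFiniteType D.toBase := by
  intro X _
  obtain ⟨D, ⟨h⟩, hp⟩ := CCube32.exists_jacobian X.c X.ε
  exact ⟨D, h, inferInstance, inferInstance⟩

/-- **CUBE output.** A symmetric effective Cartier divisor `D` with affine nonempty complement such
that `[N]^* cl D = (cl D) ^ (N²)` for all `N`. -/
theorem exists_divisor_hcube (hc : G.IsCommutative) (hA : AbelianSchemePropertyBundle K f)
    (g : ℕ) [SmoothOfRelativeDimension g f] (hcurv : CurvStatement G g) :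
    haveI := Var81.isIntegral_of_bundle f hA
    ∃ (U : A.Opens) (D : CaDiv A), IsAffineOpen U ∧ Nonempty U ∧ D.IsEffective ∧
      D.support = (U : Set A)ᶜ ∧
      ∀ N : ℕ, Pic.map (G.schemeNsmul N) (cl D) = cl D ^ (N ^ 2) := by
  haveI : IsIntegral A := Var81.isIntegral_of_bundle f hA
  haveI := hA.smooth
  haveI := hA.proper
  haveI : A.IsSeparated := ⟨by rw [← terminal.comp_from f]; infer_instance⟩
  obtain ⟨l, hl, hdom⟩ := hcurv
  -- the symmetric divisor
  obtain ⟨hdomι, U, D₀, hU, hne, -, hD₀, hsupp₀, hsym₀⟩ :=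
    Fact49.SymmetricDiv.exists_symmetric_effective_caDiv f (negMor G) (negMor_comp_negMor G)
  -- the degree of the sum map
  set δ := Pic38.sumDegree G hA l with hδdef
  have hδ : 0 < δ := Nat.pos_of_ne_zero (Box14.sumDegree_ne_zero G hA g l hl)
  have hsym : Pic.map (G.inv f RelativeGroupLaw.idPoint).1 (cl D₀) = cl D₀ := by
    change Pic.map (negMor G) (cl D₀) = cl D₀
    rw [map_cl, hsym₀]
  have hformula := fun N : ℕ =>
    Pic38.pow_map_schemeNsmul_of_rep G hc hA l (hrep_of_s25 l) (cl D₀) hsym N
  refine ⟨U, D₀ ^ δ, hU, hne, hD₀.pow δ, ?_, fun N => ?_⟩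
  · rw [CaDiv.support_pow_of_isEffective hD₀ hδ, hsupp₀]
  · rw [map_pow, map_pow, hformula N, ← pow_mul]

/-- **Brick DEG**: the number of `n`-torsion points, given the curves (`DegStatement` of
`F5_6.Assembly`). -/
theorem card_torsion_of_curvStatement (hc : G.IsCommutative)
    (hA : AbelianSchemePropertyBundle K f) (g : ℕ) [SmoothOfRelativeDimension g f]
    (hcurv : CurvStatement G g) (n : ℕ) (hn : (n : K) ≠ 0) :
    Nat.card {x : SchemeHomOver (𝟙 (Spec (CommRingCat.of K))) f //
        G.IsTorsionPoint (𝟙 (Spec (CommRingCat.of K))) n x} = n ^ (2 * g) := by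
  haveI : IsIntegral A := Var81.isIntegral_of_bundle f hA
  letI : Algebra K A.functionField := (Sand86.structK f).toAlgebra
  have halg : ∀ r : K, algebraMap K A.functionField r = Sand86.structK f r := fun _ => rfl
  obtain ⟨U, D, hU, hne, hD, hsupp, hcube⟩ := exists_divisor_hcube G hc hA g hcurv
  obtain ⟨hfin, hupp⟩ := Box14.exists_upp_of_curvStatement G g hcurv halg hD
  exact result_of_volumeInput G hc hA g n hn
    (Sand86.volumeInput_of_divisor' G hc hA g n hn halg hD hU hsupp hfin hupp
      (fun j => hcube (n ^ j)))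

end Fermat.Agent.AV.Deg14
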